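import Fermat.Agent.LTG.K.Frob
import Fermat.Agent.LT.K.Ram

/-!
# LT piece K: ramification in the tower `ℚ ⊂ K ⊂ L ⊂ M ⊂ B ⊂ N`

Clone of part of LT/K/Ram for `OctaG`.
-/

set_option autoImplicit false

open Matrix NumberField Pointwise IsDedekindDomain

namespace Fermat.Agent.LTG.K

open Fermat.Agent.LT.K Fermat.Agent.LTG

local notation "Γℚ" => (AlgebraicClosure ℚ ≃ₐ[ℚ] AlgebraicClosure ℚ)
local notation "ℚbar" => AlgebraicClosure ℚ

namespace OctaG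

variable (R : OctaG) {H H' : Subgroup G3}

theorem natCast_mem_cen {A : ValuationSubring ℚbar} {q : ℕ} :
    ((q : ℕ) : 𝓞 R.N) ∈ R.cen A ↔ A.LiesOverPrime q := by
  rw [mem_cen]
  simp [ValuationSubring.LiesOverPrime]

theorem mem_inertia_sub {P : Ideal (𝓞 R.N)} {g : H} :
    g ∈ P.inertia H ↔ (g : G3) ∈ P.inertia G3 := Iff.rfl

theorem two_notMem {P : Ideal (𝓞 R.N)} [hp : P.IsPrime] (h3 : (3 : 𝓞 R.N) ∈ P) :
    (2 : 𝓞 R.N) ∉ P := by
  intro h2
  apply hp.ne_top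
  rw [Ideal.eq_top_iff_one]
  have : (1 : 𝓞 R.N) = 3 - 2 := by norm_num
  rw [this]
  exact sub_mem h3 h2

end OctaG

end Fermat.Agent.LTG.K
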