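import Fermat.Agent.LTG.K.Dens
import Fermat.Agent.LTG.Top.KillOcta
import Fermat.Agent.LT.K.DensL

/-!
# LT: the inputs of `uniqueness_sparse` on the side of `L`

`C : Cub R.K R.L`, `T` a finite set of places of `R.L`, `P = {w // w ∉ T}`.

* `summable_out` : `∑_{w ∉ T} q_w^{-s} < ∞` for `s > 1`;
* `summable_fix` : `∑_{σ w = w} q_w^{-1/2} < ∞`;
* `tendsto_lam_sq` : `∑_{w ∉ T, σ w ≠ w} λ_w² q_w^{-s} → ∞` as `s → 1+`;
* `abs_lam_le`, `two_le_qv`.

(helper51)
-/

set_option autoImplicit false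

open NumberField IsDedekindDomain Filter Topology
open Fermat.LT Fermat.Agent.LT.D Fermat.Agent.CFT

namespace Fermat.Agent.LTG.K

open Fermat.Agent.LT.K Fermat.Agent.LTG


namespace OctaG

variable (R : OctaG)

/-- (L4) -/
theorem abs_lam_le (w : Pl R.L) : |(R.lam w : ℝ)| ≤ 2 := by
  rcases R.lam_eq_or w with h | h | h <;> rw [h] <;> norm_num

theorem lam_sq_of_mem {w : Pl R.L} (h : (R.fr w : G3) ∈ Z2) : (R.lam w : ℝ) ^ 2 = 4 := by
  rw [lam]
  rcases mem_Z2.mp h with h | h
  · rw [h]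
    have : trQ (1 : G3) = 2 := by rw [trQ, if_pos rfl]
    rw [this]; norm_num
  · rw [h]
    have h1 : (-1 : G3) ≠ 1 := by decide
    have : trQ (-1 : G3) = -2 := by rw [trQ, if_neg h1, if_pos rfl]
    rw [this]; norm_num

/-- (L3) -/
theorem tendsto_lam_sq (C : Cub R.K R.L) (T : Finset (Pl R.L)) :
    Tendsto (fun s : ℝ => ∑' v : {w : Pl R.L // w ∉ T},
      {v : {w : Pl R.L // w ∉ T} | pl C v.1 ≠ v.1}.indicator
        (fun v => (R.lam v.1 : ℝ) ^ 2 * qv v.1 ^ (-s)) v) (𝓝[>] 1) atTop := by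
  classical
  set A : Set {w : Pl R.L // w ∉ T} := {v | pl C v.1 ≠ v.1} with hA
  set l : {w : Pl R.L // w ∉ T} → ℝ := fun v => A.indicator (fun v => (R.lam v.1 : ℝ) ^ 2) v with hl
  have hfin : (Set.range (Subtype.val : {w : Pl R.L // w ∉ T} → Pl R.L))ᶜ.Finite := by
    refine T.finite_toSet.subset fun w hw => ?_
    by_contra h
    exact hw ⟨⟨w, h⟩, rfl⟩
  have h1 := R.eventually_le_tsum Q8 (Z2_le_C4.trans C4_le_Q8)
    (ι := (Subtype.val : {w : Pl R.L // w ∉ T} → Pl R.L)) Subtype.val_injective hfin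
    ((Fermat.Agent.LT.Top.finite_fix_prime C).toFinset.image DedekindEuler.below) l
    (fun v => Set.indicator_nonneg (fun _ _ => sq_nonneg _) _) (C := 4)
    (fun v => by
      have := R.abs_lam_le v.1
      rw [abs_le] at this
      rw [hl]
      by_cases hv : v ∈ A
      · simp only
        rw [Set.indicator_of_mem hv]
        nlinarith
      · simp only
        rw [Set.indicator_of_notMem hv]
        norm_num) (c := 4) (by norm_num)
    (fun v hv hZ hp _ => by
      have hvA : v ∈ A := by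
        intro hfix
        apply hv
        exact Finset.mem_image_of_mem _ (by rw [Set.Finite.mem_toFinset]; exact ⟨hfix, hp⟩)
      rw [hl]
      simp only
      rw [Set.indicator_of_mem hvA, R.lam_sq_of_mem hZ]) (κ := 1 / 2) (by
        rw [card_Q8]; norm_num)
  refine tendsto_atTop_mono' _ ?_
    ((Fermat.Agent.FrobDensity.tendsto_log_atTop).const_mul_atTop (by norm_num : (0 : ℝ) < 1 / 2))
  filter_upwards [h1] with s hs
  refine hs.trans (le_of_eq (tsum_congr fun v => ?_))
  by_cases hv : v ∈ A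
  · rw [hl]
    simp only
    rw [Set.indicator_of_mem hv, Set.indicator_of_mem hv]
    rfl
  · rw [hl]
    simp only
    rw [Set.indicator_of_notMem hv, Set.indicator_of_notMem hv, zero_mul]

end OctaG

end Fermat.Agent.LTG.K
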