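import Fermat.Agent.LTG.K.Ram

/-!
# LTG: local structure of the octahedral tower, general case

`P` a prime of `N`, `G3 = GL₂(𝔽₃)` acting. If the decomposition group contains an element of
`SL₂ ∖ Q8` (`P` is not split in `L / K`) then `N / L` is unramified at `P` (`3 ∈ P` or `6 ∉ P`), or
`2 ∈ P` and `L / K` is ramified at `P`.
(helper24)
-/

set_option autoImplicit false

open Matrix NumberField Pointwise IsDedekindDomain
open Fermat.Agent.FrobExists Fermat.Agent.FrobPlaceLift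

namespace Fermat.Agent.LTG.K

open Fermat.Agent.LT.K Fermat.Agent.LTG

local notation "Γℚ" => (AlgebraicClosure ℚ ≃ₐ[ℚ] AlgebraicClosure ℚ)
local notation "ℚbar" => AlgebraicClosure ℚ

namespace OctaG

variable (R : OctaG) {H H' : Subgroup G3}

/-- the inertia group is normalised by the decomposition group -/
theorem conj_mem_inertia {P : Ideal (𝓞 R.N)} {g h : G3} (hg : g • P = P)
    (hh : h ∈ P.inertia G3) : g * h * g⁻¹ ∈ P.inertia G3 := by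
  intro x
  change (g * h * g⁻¹) • x - x ∈ P
  rw [← hg, Ideal.mem_pointwise_smul_iff_inv_smul_mem]
  have h4 := hh (g⁻¹ • x)
  change h • g⁻¹ • x - g⁻¹ • x ∈ P at h4
  have e : g⁻¹ • ((g * h * g⁻¹) • x - x) = h • g⁻¹ • x - g⁻¹ • x := by
    rw [smul_sub, ← mul_smul, ← mul_smul]
    congr 2
    group
  rw [e]
  exact h4

theorem smul_eq_of_mem_inertia {P : Ideal (𝓞 R.N)} {g : G3} (hg : g ∈ P.inertia G3) :
    g • P = P := by
  have key : ∀ g ∈ P.inertia G3, P ≤ g • P := by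
    intro g hg x hx
    rw [Ideal.mem_pointwise_smul_iff_inv_smul_mem]
    have h1 := (P.inertia G3).inv_mem hg x
    have h2 := P.add_mem h1 hx
    change g⁻¹ • x - x + x ∈ P at h2
    rwa [sub_add_cancel] at h2
  apply le_antisymm
  · have h1 := key g⁻¹ ((P.inertia G3).inv_mem hg)
    have h2 := Ideal.pointwise_smul_le_pointwise_smul_iff (a := g).mpr h1
    rwa [smul_inv_smul] at h2
  · exact key g hg

/-- inertia meets `Q8` in a group which is cyclic modulo `±1`, if the residue characteristic is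
odd -/
theorem inertia_Q8_pair {P : Ideal (𝓞 R.N)} [P.IsPrime] (hP : P ≠ ⊥) (h2 : (2 : 𝓞 R.N) ∉ P)
    {x y : G3} (hx : x ∈ P.inertia G3) (hxQ : x ∈ Q8) (hxZ : x ∉ Z2) (hy : y ∈ P.inertia G3)
    (hyQ : y ∈ Q8) (hyZ : y ∉ Z2) : y = x ∨ y = -x := by
  obtain ⟨ℓ, A, hℓ, hA, hPA⟩ := R.exists_cen_eq P hP
  have hℓ2 : ℓ ≠ 2 := by
    rintro rfl
    apply h2
    rw [← hPA]
    have := (R.natCast_mem_cen (A := A) (q := 2)).mpr hA
    simpa using this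
  rw [← hPA] at hx hy
  obtain ⟨σ, hσ, rfl⟩ := (R.mem_inertia_iff hℓ hA).mp hx
  obtain ⟨τ, hτ, rfl⟩ := (R.mem_inertia_iff hℓ hA).mp hy
  let _ : TopologicalSpace (G3 ⧸ Z2) := ⊥
  have _ : DiscreteTopology (G3 ⧸ Z2) := ⟨rfl⟩
  have hcont : Continuous ((QuotientGroup.mk' Z2).comp R.ρ) :=
    (continuous_of_discreteTopology (f := (QuotientGroup.mk' Z2 : G3 → G3 ⧸ Z2))).comp
      R.isOcta.cont
  have key := involution_unique_rep ((QuotientGroup.mk' Z2).comp R.ρ) hcont hℓ hℓ2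
    hA hσ hτ ?_ ?_ ?_ ?_ ?_
  · rw [← inv_mul_mem_Z2_iff, ← QuotientGroup.eq]
    exact key
  · change ((R.ρ σ * R.ρ σ : G3) : G3 ⧸ Z2) = 1
    rw [QuotientGroup.eq_one_iff]
    exact Q8_sq hxQ
  · change ((R.ρ τ * R.ρ τ : G3) : G3 ⧸ Z2) = 1
    rw [QuotientGroup.eq_one_iff]
    exact Q8_sq hyQ
  · change ((R.ρ σ * R.ρ τ : G3) : G3 ⧸ Z2) = ((R.ρ τ * R.ρ σ : G3) : G3 ⧸ Z2)
    rw [QuotientGroup.eq, inv_mul_mem_Z2_iff]
    exact Q8_comm hyQ hxQ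
  · change ((R.ρ σ : G3) : G3 ⧸ Z2) ≠ 1
    rw [Ne, QuotientGroup.eq_one_iff]
    exact hxZ
  · change ((R.ρ τ : G3) : G3 ⧸ Z2) ≠ 1
    rw [Ne, QuotientGroup.eq_one_iff]
    exact hyZ

/-- an element of `SL₂ ∖ Q8` in the decomposition group: inertia meets `Q8` in `±1` -/
theorem inertia_Q8_le_Z2 {P : Ideal (𝓞 R.N)} [P.IsPrime] (hP : P ≠ ⊥) (h2 : (2 : 𝓞 R.N) ∉ P)
    {g : G3} (hg : g • P = P) (hgS : g ∈ SLs) (hgQ : g ∉ Q8) {x : G3} (hxQ : x ∈ Q8)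
    (hxI : x ∈ P.inertia G3) : x ∈ Z2 := by
  by_contra hxZ
  have h1 : g * x * g⁻¹ ∈ P.inertia G3 := R.conj_mem_inertia hg hxI
  have h2' : g * x * g⁻¹ ∈ Q8 := (inferInstance : Q8.Normal).conj_mem _ hxQ g
  have h4 : g * x * g⁻¹ ∉ Z2 := by
    intro h
    apply hxZ
    have := (inferInstance : Z2.Normal).conj_mem _ h g⁻¹
    have e : g⁻¹ * (g * x * g⁻¹) * g⁻¹⁻¹ = x := by group
    rwa [e] at this
  rcases R.inertia_Q8_pair hP h2 hxI hxQ hxZ h1 h2' h4 with h | h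
  · apply (conj_ne hgS hgQ hxQ hxZ).1
    rw [mul_inv_eq_iff_eq_mul] at h
    exact h
  · apply (conj_ne hgS hgQ hxQ hxZ).2
    rw [mul_inv_eq_iff_eq_mul] at h
    rw [h]
    refine G3.ext' ?_ ?_ ?_ ?_ <;> simp

/-- **Ramified case.** If inertia contains an element of `SL₂ ∖ Q8` and
(residue characteristic odd, or inertia meets `Q8` trivially) then the decomposition group
meets `Q8` in `±1`. -/
theorem mem_Z2_of_ram {P : Ideal (𝓞 R.N)} [P.IsPrime] (hP : P ≠ ⊥)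
    (h2 : (2 : 𝓞 R.N) ∉ P ∨ P.inertia Q8 = ⊥) {g : G3}
    (hg : g ∈ P.inertia G3) (hgS : g ∈ SLs) (hgQ : g ∉ Q8) {x : G3} (hxQ : x ∈ Q8)
    (hxP : x • P = P) : x ∈ Z2 := by
  by_contra hxZ
  have hn : g * x⁻¹ * g⁻¹ ∈ Q8 := (inferInstance : Q8.Normal).conj_mem _ (inv_mem hxQ) g
  set y := x * (g * x⁻¹ * g⁻¹) with hy
  have hyQ : y ∈ Q8 := mul_mem hxQ hn
  have hyI : y ∈ P.inertia G3 := by
    have h1 := (P.inertia G3).mul_mem (R.conj_mem_inertia hxP hg) ((P.inertia G3).inv_mem hg)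
    have e : x * g * x⁻¹ * g⁻¹ = y := by rw [hy]; group
    rwa [e] at h1
  have hyZ : y ∉ Z2 := by
    intro h
    have e : y * (g * x) = x * g := by rw [hy]; group
    have hc := conj_ne hgS hgQ hxQ hxZ
    rcases h with h | h
    · rw [h, one_mul] at e
      exact hc.1 e
    · rw [h, neg_one_mul'] at e
      exact hc.2 (by rw [← e, neg_neg])
  rcases h2 with h2 | h2
  · exact hyZ (R.inertia_Q8_le_Z2 hP h2 (R.smul_eq_of_mem_inertia hg) hgS hgQ hyQ hyI)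
  · have h1 : (⟨y, hyQ⟩ : Q8) ∈ P.inertia Q8 := hyI
    rw [h2, Subgroup.mem_bot] at h1
    apply hyZ
    have : y = 1 := congrArg Subtype.val h1
    rw [this]
    exact Z2.one_mem

/-! ### inertia at the fixed places above `2` -/

/-- commutators of elements of the decomposition group are in the inertia group -/
theorem commutator_mem_inertia {P : Ideal (𝓞 R.N)} [P.IsPrime] (hP : P ≠ ⊥) {g h : G3}
    (hg : g • P = P) (hh : h • P = P) : g * h * g⁻¹ * h⁻¹ ∈ P.inertia G3 := by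
  have hne : NeZero P := ⟨hP⟩
  have hmax : P.IsMaximal := Ideal.IsPrime.isMaximal inferInstance hP
  have hlo2 : P.LiesOver (P.under ℤ) := ⟨rfl⟩
  have hfin : Finite (𝓞 R.N ⧸ P) := inferInstance
  let _ : Field (𝓞 R.N ⧸ P) := Ideal.Quotient.field P
  let f : (𝓞 R.N ⧸ P) ≃+* (𝓞 R.N ⧸ P) :=
    (Ideal.Quotient.stabilizerHom P (P.under ℤ) G3 ⟨g, hg⟩ :
      (𝓞 R.N ⧸ P) ≃ₐ[ℤ ⧸ P.under ℤ] (𝓞 R.N ⧸ P)).toRingEquiv
  have hf : ∀ y : 𝓞 R.N, f (Ideal.Quotient.mk P y) = Ideal.Quotient.mk P (g • y) := fun y => rfl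
  let f' : (𝓞 R.N ⧸ P) ≃+* (𝓞 R.N ⧸ P) :=
    (Ideal.Quotient.stabilizerHom P (P.under ℤ) G3 ⟨h, hh⟩ :
      (𝓞 R.N ⧸ P) ≃ₐ[ℤ ⧸ P.under ℤ] (𝓞 R.N ⧸ P)).toRingEquiv
  have hf' : ∀ y : 𝓞 R.N, f' (Ideal.Quotient.mk P y) = Ideal.Quotient.mk P (h • y) := fun y => rfl
  intro y
  change (g * h * g⁻¹ * h⁻¹) • y - y ∈ P
  rw [← Ideal.Quotient.eq]
  set z : 𝓞 R.N := g⁻¹ • h⁻¹ • y with hz
  have e1 : (g * h * g⁻¹ * h⁻¹) • y = g • h • z := by
    rw [hz, ← mul_smul, ← mul_smul, ← mul_smul]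
  have e2 : y = h • g • z := by
    rw [hz, smul_inv_smul, smul_inv_smul]
  rw [e1]
  conv_rhs => rw [e2]
  rw [← hf, ← hf', ← hf', ← hf]
  exact ringEquiv_comm f f' _

theorem card_quot_of_two {P : Ideal (𝓞 R.N)} [P.IsPrime] (hP : P ≠ ⊥) (h2 : (2 : 𝓞 R.N) ∈ P) :
    Nat.card (ℤ ⧸ P.under ℤ) = 2 := by
  obtain ⟨A, hA, rfl⟩ := R.exists_prime_cen hP Nat.prime_two (by simpa using h2)
  exact R.card_quot_int Nat.prime_two hA

/-- Frobenius at a prime above `2` has determinant `-1` -/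
theorem exists_dt_neg_of_two {P : Ideal (𝓞 R.N)} [P.IsPrime] (hP : P ≠ ⊥)
    (h2 : (2 : 𝓞 R.N) ∈ P) : ∃ h : G3, h • P = P ∧ dt h = -1 := by
  have hne : NeZero P := ⟨hP⟩
  have h1 := IsArithFrobAt.arithFrobAt ℤ G3 P
  refine ⟨arithFrobAt ℤ G3 P, IsArithFrobAt.arithFrobAt_mem_stabilizer ℤ G3 P,
    (dt_eq_or _).resolve_left fun hd => ?_⟩
  obtain ⟨z, hz, hz1, -⟩ := R.exists_zeta_int
  have h3 := h1 z
  rw [R.card_quot_of_two hP h2] at h3
  change arithFrobAt ℤ G3 P • z - z ^ 2 ∈ P at h3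
  rw [hz1 _ hd] at h3
  have h4 : (1 : 𝓞 R.N) ∈ P := by
    have e : (1 : 𝓞 R.N) = (z - z ^ 2) * (z ^ 2 - z) - 2 * 1 := by
      linear_combination (3 - 3 * z + z ^ 2) * hz
    rw [e]
    exact sub_mem (P.mul_mem_right _ h3) (P.mul_mem_right _ h2)
  exact Ideal.IsPrime.ne_top inferInstance ((Ideal.eq_top_iff_one P).mpr h4)

/-- **The fixed places above `2` are ramified in `L / K`.** -/
theorem exists_inertia_of_two {P : Ideal (𝓞 R.N)} [P.IsPrime] (hP : P ≠ ⊥)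
    (h2 : (2 : 𝓞 R.N) ∈ P) {g : G3} (hg : g • P = P) (hgS : g ∈ SLs) (hgQ : g ∉ Q8) :
    ∃ g' ∈ P.inertia G3, g' ∈ SLs ∧ g' ∉ Q8 := by
  obtain ⟨h, hh, hd⟩ := R.exists_dt_neg_of_two hP h2
  refine ⟨g * h * g⁻¹ * h⁻¹, R.commutator_mem_inertia hP hg hh, ?_, comm_not_mem_Q8 hgS hgQ hd⟩
  rw [mem_SLs] at hgS ⊢
  rw [dt_mul, dt_mul, dt_mul, dt_inv, dt_inv, hgS, hd]
  decide

theorem lam_of_mem_Z2 {w : HeightOneSpectrum (𝓞 R.L)} (h : (R.fr w : G3) ∈ Z2) :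
    R.lam w = 2 ∨ R.lam w = -2 := by
  unfold lam trQ
  rcases h with h | h
  · left; rw [if_pos h]
  · right
    rw [if_neg, if_pos h]
    intro h1
    rw [h] at h1
    exact absurd h1 (by decide)

/-- Frobenius elements are in the decomposition group -/
theorem fr_smul (w : HeightOneSpectrum (𝓞 (R.fld H))) : (R.fr w : G3) • R.ab w = R.ab w :=
  IsArithFrobAt.arithFrobAt_mem_stabilizer (𝓞 (R.fld H)) H (R.ab w)

/-- If `g` fixes `P` and acts trivially on the residue field of `fld H` then `g ∈ H · inertia`. -/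
theorem exists_inertia_mul {P : Ideal (𝓞 R.N)} [P.IsPrime] {g : G3}
    (hg : g • P = P) (hres : ∀ x : 𝓞 (R.fld H), g • algebraMap (𝓞 (R.fld H)) (𝓞 R.N) x -
      algebraMap (𝓞 (R.fld H)) (𝓞 R.N) x ∈ P) :
    ∃ h ∈ H, h • P = P ∧ h⁻¹ * g ∈ P.inertia G3 := by
  have hlo : P.LiesOver (P.under (𝓞 (R.fld H))) := ⟨rfl⟩
  have hlo2 : P.LiesOver (P.under ℤ) := ⟨rfl⟩
  let f0 : (𝓞 R.N ⧸ P) ≃+* (𝓞 R.N ⧸ P) :=
    (Ideal.Quotient.stabilizerHom P (P.under ℤ) G3 ⟨g, hg⟩ :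
      (𝓞 R.N ⧸ P) ≃ₐ[ℤ ⧸ P.under ℤ] (𝓞 R.N ⧸ P)).toRingEquiv
  have hf0 : ∀ y : 𝓞 R.N, f0 (Ideal.Quotient.mk P y) = Ideal.Quotient.mk P (g • y) := fun y => rfl
  let f : (𝓞 R.N ⧸ P) ≃ₐ[𝓞 (R.fld H) ⧸ P.under (𝓞 (R.fld H))] (𝓞 R.N ⧸ P) :=
    AlgEquiv.ofRingEquiv (f := f0) (by
      intro x
      obtain ⟨x, rfl⟩ := Ideal.Quotient.mk_surjective x
      change f0 (Ideal.Quotient.mk P (algebraMap _ _ x)) = Ideal.Quotient.mk P (algebraMap _ _ x)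
      rw [hf0, Ideal.Quotient.eq]
      exact hres x)
  obtain ⟨h, hh⟩ := Ideal.Quotient.stabilizerHom_surjective H (P.under (𝓞 (R.fld H))) P f
  have hhP : ((h : H) : G3) • P = P := h.2
  refine ⟨((h : H) : G3), (h : H).2, hhP, ?_⟩
  intro y
  have h1 : Ideal.Quotient.mk P (((h : H) : G3) • y) = Ideal.Quotient.mk P (g • y) := by
    have := DFunLike.congr_fun hh (Ideal.Quotient.mk P y)
    exact this
  rw [Ideal.Quotient.eq] at h1
  change (((h : H) : G3)⁻¹ * g) • y - y ∈ P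
  rw [← neg_mem_iff]
  have h2 : ((h : H) : G3)⁻¹ • (((h : H) : G3) • y - g • y) ∈ P := by
    rw [← Ideal.mem_pointwise_smul_iff_inv_smul_mem]
    exact hhP.symm ▸ h1
  rw [smul_sub, inv_smul_smul, ← mul_smul] at h2
  rwa [neg_sub]

theorem exists_inertia_of_triv {P : Ideal (𝓞 R.N)} [P.IsPrime] {g : G3}
    (hg : g • P = P) (hgS : g ∈ SLs) (hgQ : g ∉ Q8)
    (hres : ∀ x : 𝓞 R.L, g • algebraMap (𝓞 R.L) (𝓞 R.N) x -
      algebraMap (𝓞 R.L) (𝓞 R.N) x ∈ P) :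
    ∃ g' ∈ P.inertia G3, g' ∈ SLs ∧ g' ∉ Q8 := by
  obtain ⟨h, hh, -, hI⟩ := R.exists_inertia_mul (H := Q8) hg hres
  refine ⟨h⁻¹ * g, hI, mul_mem (inv_mem (Q8_le_SLs hh)) hgS, fun h' => hgQ ?_⟩
  have := mul_mem hh h'
  rwa [mul_inv_cancel_left] at this

/-- **non-split places above `3`**: `N / L` is unramified -/
theorem inertia_Q8_of_stab_three {P : Ideal (𝓞 R.N)} [hp : P.IsPrime] (hP : P ≠ ⊥)
    (h3 : (3 : 𝓞 R.N) ∈ P) {g : G3} (hg : g • P = P) (hgS : g ∈ SLs) (hgQ : g ∉ Q8) :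
    P.inertia Q8 = ⊥ := by
  rw [Subgroup.eq_bot_iff_forall]
  intro x hx
  have hxI : (x : G3) ∈ P.inertia G3 := hx
  have h2 := R.two_notMem h3
  rcases R.inertia_Q8_le_Z2 hP h2 hg hgS hgQ x.2 hxI with h | h
  · exact Subtype.ext h
  · exfalso
    obtain ⟨c, hc, hdc⟩ := R.exists_inertia_dt' h3
    have hc2 : c * c ∈ P.inertia G3 := (P.inertia G3).mul_mem hc hc
    rcases Octa.sq_of_dt_neg hdc with h1 | ⟨h1, h1'⟩
    · have hmax : P.IsMaximal := hp.isMaximal hP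
      have hfaith : FaithfulSMul G3 (𝓞 R.N) :=
        (inferInstance : IsGaloisGroup G3 ℤ (𝓞 R.N)).faithful
      rw [h] at hxI
      have h4 : c = -1 := involution_unique h2 hc hxI h1 (by decide)
        (by rw [neg_one_mul', mul_neg, mul_one])
        (by rintro rfl; rw [dt_one] at hdc; exact absurd hdc (by decide)) (by decide)
      rw [h4] at hdc
      exact absurd hdc (by decide)
    · exact h1' (R.inertia_Q8_le_Z2 hP h2 hg hgS hgQ h1 hc2)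

/-- **non-split places prime to `6`**: `N / L` is unramified, if `-1` is not in the inertia
group without an element of order four -/
theorem inertia_Q8_of_stab_five {P : Ideal (𝓞 R.N)} [hp : P.IsPrime] (hP : P ≠ ⊥)
    (h2 : (2 : 𝓞 R.N) ∉ P) (h3 : (3 : 𝓞 R.N) ∉ P)
    {g : G3} (hg : g • P = P) (hgS : g ∈ SLs) (hgQ : g ∉ Q8) :
    P.inertia Q8 = ⊥ := by
  rw [Subgroup.eq_bot_iff_forall]
  intro x hx
  have hxI : (x : G3) ∈ P.inertia G3 := hx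
  rcases R.inertia_Q8_le_Z2 hP h2 hg hgS hgQ x.2 hxI with h | h
  · exact Subtype.ext h
  · exfalso
    rw [h] at hxI
    obtain ⟨y, hy, hyy⟩ := R.good_inertia hP h2 h3 hxI
    have hyS := R.inertia_le_SLs h3 hy
    have hyQ : y ∈ Q8 := sq_mem_Q8 hyS (by rw [hyy]; exact neg_one_mem_Q8)
    have := sq_of_mem_Z2 (R.inertia_Q8_le_Z2 hP h2 hg hgS hgQ hyQ hy)
    rw [hyy] at this
    exact neg_one_ne_one this

end OctaG

end Fermat.Agent.LTG.K
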