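import Fermat.Agent.LTG.K.RamBase
import Fermat.Agent.LT.K.Local

/-!
# LTG: ramification in the octahedral tower, general case

* `inertia_le_SLs`, `exists_inertia_dt` : `K / ℚ` is ramified exactly at `3`.
* group theory in `GL₂(𝔽₃)`: `comm_not_mem_Q8`, `coset_Q8`.
(helper24)
-/

set_option autoImplicit false

open Matrix NumberField Pointwise IsDedekindDomain
open Fermat.Agent.FrobExists Fermat.Agent.FrobPlaceLift

namespace Fermat.Agent.LTG.K

open Fermat.Agent.LT.K Fermat.Agent.LTG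

local notation "Γℚ" => (AlgebraicClosure ℚ ≃ₐ[ℚ] AlgebraicClosure ℚ)
local notation "ℚbar" => AlgebraicClosure ℚ

set_option synthInstance.maxHeartbeats 200000 in
set_option synthInstance.maxSize 4000 in
theorem conj_inv_aux : ∀ a b c d a' b' c' d' : ZMod 3, a * d - b * c = 1 →
    a' * d' - b' * c' = -1 →
    isQ (((a' * a + b' * c) * d' - (a' * b + b' * d) * c') * a +
        ((a' * b + b' * d) * a' - (a' * a + b' * c) * b') * c)
      (((a' * a + b' * c) * d' - (a' * b + b' * d) * c') * b +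
        ((a' * b + b' * d) * a' - (a' * a + b' * c) * b') * d)
      (((c' * a + d' * c) * d' - (c' * b + d' * d) * c') * a +
        ((c' * b + d' * d) * a' - (c' * a + d' * c) * b') * c)
      (((c' * a + d' * c) * d' - (c' * b + d' * d) * c') * b +
        ((c' * b + d' * d) * a' - (c' * a + d' * c) * b') * d) := by
  decide +kernel

theorem inv_eq_of_dt_neg {g : G3} (h : dt g = -1) :
    g⁻¹ = mk4 (-g 1 1) (g 0 1) (g 1 0) (-g 0 0) (by
      have := dt_mul_self g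
      rw [dt] at this
      linear_combination this) := by
  rw [inv_eq_iff_mul_eq_one]
  rw [dt] at h
  refine G3.ext' ?_ ?_ ?_ ?_ <;> simp <;> first | linear_combination -h | ring

theorem isQ_neg : ∀ a b c d : ZMod 3, isQ a b c d → isQ (-a) (-b) (-c) (-d) := by decide +kernel

/-- conjugation by an element of determinant `-1` is inversion on `SL₂ / Q8` -/
theorem conj_mul_mem_Q8 {g h : G3} (hg : g ∈ SLs) (hh : dt h = -1) : h * g * h⁻¹ * g ∈ Q8 := by
  have h1 := isQ_neg _ _ _ _ (conj_inv_aux _ _ _ _ _ _ _ _ hg hh)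
  rw [mem_Q8, inv_eq_of_dt_neg hh]
  convert h1 using 1 <;> simp <;> ring

theorem sq_mem_Q8 {g : G3} (hg : g ∈ SLs) (h : g * g ∈ Q8) : g ∈ Q8 := by
  have key : ∀ a b c d : ZMod 3, a * d - b * c = 1 →
    isQ (a * a + b * c) (a * b + b * d) (c * a + d * c) (c * b + d * d) → isQ a b c d := by
    decide +kernel
  rw [mem_Q8, mul00, mul01, mul10, mul11] at h
  exact key _ _ _ _ hg h

/-- the commutator of an element of `SL₂ ∖ Q8` and an element of determinant `-1` is not in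
`Q8` -/
theorem comm_not_mem_Q8 {g h : G3} (hg : g ∈ SLs) (hgQ : g ∉ Q8) (hh : dt h = -1) :
    g * h * g⁻¹ * h⁻¹ ∉ Q8 := by
  intro hc
  apply hgQ
  apply sq_mem_Q8 hg
  have h1 := mul_mem (inv_mem (conj_mul_mem_Q8 hg hh)) (inv_mem hc)
  have h2 := inv_mem h1
  have e : ((h * g * h⁻¹ * g)⁻¹ * (g * h * g⁻¹ * h⁻¹)⁻¹)⁻¹ = g ^ 2 := by group
  rw [e, sq] at h2
  exact h2

/-- automorphisms of a finite field commute -/
theorem ringEquiv_comm {k : Type*} [Field k] [Finite k] (f f' : k ≃+* k) (x : k) :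
    f (f' x) = f' (f x) := by
  rcases eq_or_ne x 0 with rfl | hx
  · simp
  obtain ⟨u, hu⟩ := IsCyclic.exists_generator (α := kˣ)
  obtain ⟨a, ha⟩ := Subgroup.mem_zpowers_iff.mp (hu (Units.map (f : k →* k) u))
  obtain ⟨b, hb⟩ := Subgroup.mem_zpowers_iff.mp (hu (Units.map (f' : k →* k) u))
  have ha' : f (u : k) = (u : k) ^ a := by
    have := congrArg Units.val ha
    rw [Units.val_zpow_eq_zpow_val] at this
    exact this.symm
  have hb' : f' (u : k) = (u : k) ^ b := by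
    have := congrArg Units.val hb
    rw [Units.val_zpow_eq_zpow_val] at this
    exact this.symm
  obtain ⟨n, hn⟩ := Subgroup.mem_zpowers_iff.mp (hu (Units.mk0 x hx))
  have hn' : x = (u : k) ^ n := by
    have := congrArg Units.val hn
    rw [Units.val_zpow_eq_zpow_val] at this
    exact this.symm
  rw [hn', map_zpow₀, map_zpow₀, map_zpow₀, map_zpow₀, ha', hb', map_zpow₀, map_zpow₀, ha', hb',
    ← _root_.zpow_mul, ← _root_.zpow_mul, ← _root_.zpow_mul, ← _root_.zpow_mul]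
  congr 1
  ring

set_option synthInstance.maxHeartbeats 200000 in
set_option synthInstance.maxSize 4000 in
theorem coset_aux : ∀ a b c d a' b' c' d' : ZMod 3, a * d - b * c = 1 → ¬ isQ a b c d →
    a' * d' - b' * c' = 1 → ¬ isQ a' b' c' d' →
    isQ (d * a' - b * c') (d * b' - b * d') (-c * a' + a * c') (-c * b' + a * d') ∨
    isQ ((d * a' - b * c') * a' + (d * b' - b * d') * c')
      ((d * a' - b * c') * b' + (d * b' - b * d') * d')
      ((-c * a' + a * c') * a' + (-c * b' + a * d') * c')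
      ((-c * a' + a * c') * b' + (-c * b' + a * d') * d') := by
  decide +kernel

/-- the cosets of `Q8` in `SL₂` -/
theorem coset_Q8 {g g' : G3} (hg : g ∈ SLs) (hgQ : g ∉ Q8) (hg' : g' ∈ SLs) (hgQ' : g' ∉ Q8) :
    g⁻¹ * g' ∈ Q8 ∨ g⁻¹ * g' * g' ∈ Q8 := by
  rcases coset_aux _ _ _ _ _ _ _ _ hg hgQ hg' hgQ' with h | h
  · left
    rw [mem_Q8, inv_eq_of_dt hg]
    convert h using 1 <;> simp <;> ring
  · right
    rw [mem_Q8, inv_eq_of_dt hg]
    convert h using 1 <;> simp <;> ring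

theorem neg_one_mem_Q8 : (-1 : G3) ∈ Q8 := by
  rw [mem_Q8]
  decide

theorem neg_one_ne_one : (-1 : G3) ≠ 1 := by decide

theorem sq_of_mem_Z2 {x : G3} (h : x ∈ Z2) : x * x = 1 := by
  rcases h with h | h <;> rw [h] <;> decide

namespace OctaG

variable (R : OctaG) {H H' : Subgroup G3}

/-- `ζ₃` as an integer of `N` -/
theorem exists_zeta_int : ∃ z : 𝓞 R.N, z ^ 2 + z + 1 = 0 ∧
    (∀ g : G3, dt g = 1 → g • z = z) ∧ (∀ g : G3, dt g = -1 → g • z = z ^ 2) := by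
  obtain ⟨z, hz⟩ := HasEnoughRootsOfUnity.exists_primitiveRoot ℚbar 3
  have hσ : ∀ σ : Γℚ, σ z = z ^ (dt (R.ρ σ)).val := by
    intro σ
    have h2 := modularCyclotomicCharacter.spec ℚbar
      (IsAlgClosed.card_rootsOfUnity_eq ℚbar 3) (σ : ℚbar ≃+* ℚbar)
      (t := hz.toRootsOfUnity.1) hz.toRootsOfUnity.2
    have h1 : ((WeierstrassCurve.modThreeCyclotomicChar σ : (ZMod 3)ˣ) : ZMod 3) =
        dt (R.ρ σ) := by
      rw [← R.isOcta.det σ, dt_eq]; rfl
    rw [WeierstrassCurve.modThreeCyclotomicChar_apply] at h1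
    rw [h1] at h2
    exact h2
  have hzN : z ∈ R.N := by
    rw [R.mem_fld_iff]
    intro σ h
    rw [Subgroup.mem_bot] at h
    rw [hσ, h, dt_one]
    simp [show (1 : ZMod 3).val = 1 from rfl]
  have hint : IsIntegral ℤ (⟨z, hzN⟩ : R.N) := by
    refine ⟨Polynomial.X ^ 3 - 1, Polynomial.monic_X_pow_sub_C 1 (by norm_num), ?_⟩
    rw [Polynomial.eval₂_sub, Polynomial.eval₂_pow, Polynomial.eval₂_X, Polynomial.eval₂_one,
      sub_eq_zero]
    apply Subtype.ext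
    exact hz.pow_eq_one
  have hcoe : ∀ x y : 𝓞 R.N, ((x : R.N) : ℚbar) = ((y : R.N) : ℚbar) → x = y := fun x y h =>
    RingOfIntegers.ext (Subtype.ext h)
  have hz3 : z ^ 2 + z + 1 = 0 := by
    have h1 : (z - 1) * (z ^ 2 + z + 1) = 0 := by
      have := hz.pow_eq_one
      linear_combination this
    exact (mul_eq_zero.mp h1).resolve_left (sub_ne_zero.mpr (hz.ne_one (by norm_num)))
  obtain ⟨y, hy⟩ : ∃ y : 𝓞 R.N, ((y : R.N) : ℚbar) = z := ⟨⟨⟨z, hzN⟩, hint⟩, rfl⟩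
  refine ⟨y, hcoe _ _ ?_, fun g hg => ?_, fun g hg => ?_⟩
  · rw [← hy] at hz3
    exact hz3
  · obtain ⟨σ, rfl⟩ := R.isOcta.surj g
    apply hcoe
    rw [R.coe_ρ_smul_int, hy, hσ, hg]
    simp [show (1 : ZMod 3).val = 1 from rfl]
  · obtain ⟨σ, rfl⟩ := R.isOcta.surj g
    apply hcoe
    rw [R.coe_ρ_smul_int, hy, hσ, hg]
    change _ = ((y : R.N) : ℚbar) ^ 2
    rw [hy]
    rfl

/-- inertia outside `3` is contained in `SL₂` -/
theorem inertia_le_SLs {P : Ideal (𝓞 R.N)} [hp : P.IsPrime] (h3 : (3 : 𝓞 R.N) ∉ P)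
    {g : G3} (hg : g ∈ P.inertia G3) : g ∈ SLs := by
  rw [mem_SLs]
  refine (dt_eq_or g).resolve_right fun hd => h3 ?_
  obtain ⟨z, hz, -, hz2⟩ := R.exists_zeta_int
  have h1 : g • z - z ∈ P := hg z
  rw [hz2 g hd] at h1
  have e : (3 : 𝓞 R.N) = (z ^ 2 - z) * (z - z ^ 2) := by
    linear_combination (3 - 3 * z + z ^ 2) * hz
  rw [e]
  exact P.mul_mem_right _ h1

/-- `K / ℚ` is ramified at `3` -/
theorem exists_inertia_dt :
    ∃ A : ValuationSubring ℚbar, A.LiesOverPrime 3 ∧ ∃ σ ∈ A.inertiaSubgroupIn ℚ,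
      dt (R.ρ σ) = -1 := by
  by_contra hall
  push Not at hall
  have hle : SLs.comap R.ρ = ⊤ := by
    refine LOC.Minkowski.eq_top_of_inertia_le (SLs.comap R.ρ) (R.isOpen_comap SLs) ?_
    intro q hq A hA σ hσ
    rw [Subgroup.mem_comap]
    rcases eq_or_ne q 3 with rfl | hq3
    · exact mem_SLs.mpr ((dt_eq_or _).resolve_right (hall A hA σ hσ))
    · have h3 : (3 : 𝓞 R.N) ∉ R.cen A := by
        intro h
        have h1 := (R.natCast_mem_cen (A := A) (q := 3)).mp (by simpa using h)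
        have h2 := R.under_int hq hA
        have h4 : (3 : ℤ) ∈ Ideal.span {(q : ℤ)} := by
          rw [← h2, Ideal.mem_comap]
          simpa using h
        rw [Ideal.mem_span_singleton] at h4
        have h5 : q ∣ 3 := by exact_mod_cast h4
        exact hq3 ((Nat.prime_dvd_prime_iff_eq hq Nat.prime_three).mp h5)
      exact R.inertia_le_SLs h3 ((R.mem_inertia_iff hq hA).mpr ⟨σ, hσ, rfl⟩)
  obtain ⟨σ, hσ⟩ := R.isOcta.surj (mk4 1 0 0 (-1) (by decide))
  have h1 : σ ∈ SLs.comap R.ρ := by rw [hle]; trivial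
  rw [Subgroup.mem_comap, hσ, mem_SLs] at h1
  revert h1
  decide

/-- the residue characteristic -/
theorem exists_prime_cen {P : Ideal (𝓞 R.N)} [P.IsPrime] (hP : P ≠ ⊥) {p : ℕ} (hp : p.Prime)
    (h : (p : 𝓞 R.N) ∈ P) : ∃ A : ValuationSubring ℚbar, A.LiesOverPrime p ∧ R.cen A = P := by
  obtain ⟨ℓ, A, hℓ, hA, hPA⟩ := R.exists_cen_eq P hP
  refine ⟨A, ?_, hPA⟩
  rw [← R.natCast_mem_cen, hPA]
  exact h

theorem exists_inertia_dt' {P : Ideal (𝓞 R.N)} [P.IsPrime] (h3 : (3 : 𝓞 R.N) ∈ P) :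
    ∃ g ∈ P.inertia G3, dt g = -1 := by
  obtain ⟨A, hA, σ, hσ, hd⟩ := R.exists_inertia_dt
  have h1 : (R.cen A).under ℤ = P.under ℤ := by
    rw [R.under_int Nat.prime_three hA]
    refine (isMaximal_span Nat.prime_three).eq_of_le (Ideal.IsPrime.ne_top inferInstance) ?_
    rw [Ideal.span_singleton_le_iff_mem, Ideal.mem_comap]
    simpa using h3
  obtain ⟨g, hg⟩ := Algebra.IsInvariant.exists_smul_of_under_eq ℤ (𝓞 R.N) G3 (R.cen A) P h1
  have h2 : R.ρ σ ∈ (R.cen A).inertia G3 := (R.mem_inertia_iff Nat.prime_three hA).mpr ⟨σ, hσ, rfl⟩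
  refine ⟨g * R.ρ σ * g⁻¹, ?_, ?_⟩
  · intro x
    change (g * R.ρ σ * g⁻¹) • x - x ∈ P
    rw [hg, Ideal.mem_pointwise_smul_iff_inv_smul_mem]
    have h4 := h2 (g⁻¹ • x)
    change R.ρ σ • g⁻¹ • x - g⁻¹ • x ∈ R.cen A at h4
    have e : g⁻¹ • ((g * R.ρ σ * g⁻¹) • x - x) = R.ρ σ • g⁻¹ • x - g⁻¹ • x := by
      rw [smul_sub, ← mul_smul, ← mul_smul]
      congr 2
      group
    rw [e]
    exact h4
  · rw [dt_mul, dt_mul, dt_inv, hd]
    have := dt_mul_self g
    linear_combination (-1 : ZMod 3) * this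

/-- the condition `good` for the primes of `N` -/
theorem good_inertia {P : Ideal (𝓞 R.N)} [P.IsPrime] (hP : P ≠ ⊥) (h2 : (2 : 𝓞 R.N) ∉ P)
    (h3 : (3 : 𝓞 R.N) ∉ P) (h : (-1 : G3) ∈ P.inertia G3) : ∃ y ∈ P.inertia G3, y * y = -1 := by
  obtain ⟨ℓ, A, hℓ, hA, rfl⟩ := R.exists_cen_eq P hP
  have hℓ2 : ℓ ≠ 2 := by
    rintro rfl
    exact h2 (by simpa using (R.natCast_mem_cen (A := A) (q := 2)).mpr hA)
  have hℓ3 : ℓ ≠ 3 := by
    rintro rfl
    exact h3 (by simpa using (R.natCast_mem_cen (A := A) (q := 3)).mpr hA)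
  have hℓ5 : 5 ≤ ℓ := by
    by_contra hlt
    have := hℓ.two_le
    interval_cases ℓ
    · exact hℓ2 rfl
    · exact hℓ3 rfl
    · exact absurd hℓ (by norm_num)
  obtain ⟨σ, hσ, hσ1⟩ := (R.mem_inertia_iff hℓ hA).mp h
  obtain ⟨τ, hτ, hτ1⟩ := R.isOcta.good ℓ hℓ hℓ5 A hA σ hσ hσ1
  exact ⟨R.ρ τ, (R.mem_inertia_iff hℓ hA).mpr ⟨τ, hτ, rfl⟩, hτ1⟩

end OctaG

end Fermat.Agent.LTG.K
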