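import Fermat.Agent.LTG.K.Fields
import Fermat.Agent.LT.K.Tower

/-!
# LT piece K: the tower `ℚ ⊂ K = ℚ(ζ₃) ⊂ L ⊂ M ⊂ B ⊂ N`

`K = fld SLs`, `L = fld Q8`, `M = fld C4`, `B = fld Z2`, `N = fld ⊥`.
Degrees, Galois properties, `ζ₃ ∈ K`, total complexness.
-/

set_option autoImplicit false

open Matrix NumberField

namespace Fermat.Agent.LTG.K

open Fermat.Agent.LT.K Fermat.Agent.LTG

local notation "Γℚ" => (AlgebraicClosure ℚ ≃ₐ[ℚ] AlgebraicClosure ℚ)
local notation "ℚbar" => AlgebraicClosure ℚ

namespace OctaG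

variable (R : OctaG)

/-- `K = ℚ(ζ₃)` -/
noncomputable abbrev K : IntermediateField ℚ ℚbar := R.fld SLs
/-- `L`, the cyclic cubic extension of `K` (the resolvent cubic) -/
noncomputable abbrev L : IntermediateField ℚ ℚbar := R.fld Q8
/-- `M`, a quadratic extension of `L` over which `N` is cyclic of degree four -/
noncomputable abbrev M : IntermediateField ℚ ℚbar := R.fld C4
/-- `B`, the biquadratic extension of `L` -/
noncomputable abbrev B : IntermediateField ℚ ℚbar := R.fld Z2

theorem finrank_K : Module.finrank ℚ R.K = 2 := by rw [R.finrank_fld, index_SLs]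
theorem finrank_L : Module.finrank ℚ R.L = 6 := by rw [R.finrank_fld, index_Q8]
theorem finrank_KL : Module.finrank R.K R.L = 3 := by rw [R.finrank_rel, relIndex_Q8_SLs]
theorem finrank_LM : Module.finrank R.L R.M = 2 := by rw [R.finrank_rel, relIndex_C4_Q8]
theorem finrank_MB : Module.finrank R.M R.B = 2 := by rw [R.finrank_rel, relIndex_Z2_C4]
theorem finrank_LB : Module.finrank R.L R.B = 4 := by rw [R.finrank_rel, relIndex_Z2_Q8]
theorem finrank_LN : Module.finrank R.L R.N = 8 := by rw [R.card_eq_finrank_bot, card_Q8]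
theorem finrank_MN : Module.finrank R.M R.N = 4 := by rw [R.card_eq_finrank_bot, card_C4]
theorem finrank_BN : Module.finrank R.B R.N = 2 := by rw [R.card_eq_finrank_bot, card_Z2]

instance isGalois_rel {H H' : Subgroup G3} [Fact (H' ≤ H)] [H'.Normal] :
    IsGalois (R.fld H) (R.fld H') := IsGalois.tower_top_of_isGalois ℚ _ _

instance isGalois_LM : IsGalois R.L R.M := by
  have : Algebra.IsQuadraticExtension R.L R.M :=
    { finrank_eq_two' := R.finrank_LM }
  infer_instance

instance isGalois_MB : IsGalois R.M R.B := inferInstance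

instance isGalois_KL : IsGalois R.K R.L := inferInstance

theorem card_gal_KL : Nat.card (R.L ≃ₐ[R.K] R.L) = 3 := by
  rw [IsGalois.card_aut_eq_finrank, R.finrank_KL]

instance isCyclic_KL : IsCyclic (R.L ≃ₐ[R.K] R.L) :=
  haveI : Fact (Nat.Prime 3) := ⟨Nat.prime_three⟩
  isCyclic_of_prime_card R.card_gal_KL

/-! ### the cube root of unity -/

theorem exists_zeta : ∃ z : R.K, IsPrimitiveRoot z 3 := by
  obtain ⟨z, hz⟩ := HasEnoughRootsOfUnity.exists_primitiveRoot ℚbar 3
  have hzK : z ∈ R.K := by
    rw [R.mem_fld_iff]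
    intro σ hσ
    have h1 : WeierstrassCurve.modThreeCyclotomicChar σ = 1 := by
      rw [← R.isOcta.det σ]
      exact mem_SLs'.mp hσ
    have h2 := modularCyclotomicCharacter.spec ℚbar
      (IsAlgClosed.card_rootsOfUnity_eq ℚbar 3) (σ : ℚbar ≃+* ℚbar)
      (t := hz.toRootsOfUnity.1) hz.toRootsOfUnity.2
    rw [WeierstrassCurve.modThreeCyclotomicChar_apply] at h1
    rw [h1] at h2
    have h3 : (1 : ZMod 3).val = 1 := rfl
    simpa [h3] using h2
  refine ⟨⟨z, hzK⟩, ?_⟩
  exact IsPrimitiveRoot.of_map_of_injective (f := algebraMap R.K ℚbar) hz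
    (algebraMap R.K ℚbar).injective

/-- a primitive cube root of unity in `K` -/
noncomputable def zeta : R.K := R.exists_zeta.choose

theorem zeta_spec : IsPrimitiveRoot R.zeta 3 := R.exists_zeta.choose_spec

instance isCyclotomicExtension_K : IsCyclotomicExtension {3} ℚ R.K := by
  have h : IsCyclotomicExtension {3} ℚ (IntermediateField.adjoin ℚ {R.zeta}) := by
    convert! R.zeta_spec.intermediateField_adjoin_isCyclotomicExtension ℚ
  have h1 : Module.finrank ℚ (IntermediateField.adjoin ℚ {R.zeta}) = 2 := by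
    have := IsCyclotomicExtension.finrank (n := 3) (K := ℚ)
      (IntermediateField.adjoin ℚ {R.zeta}) (Polynomial.cyclotomic.irreducible_rat (by norm_num))
    rw [this]
    decide
  have h2 : IntermediateField.adjoin ℚ {R.zeta} = ⊤ := by
    apply IntermediateField.eq_of_le_of_finrank_eq le_top
    rw [h1, IntermediateField.finrank_top', R.finrank_K]
  let e : (IntermediateField.adjoin ℚ {R.zeta}) ≃+* R.K :=
    ((IntermediateField.equivOfEq h2).trans IntermediateField.topEquiv).toRingEquiv
  exact IsCyclotomicExtension.equiv {3} ℚ (IntermediateField.adjoin ℚ {R.zeta})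
    (AlgEquiv.ofRingEquiv (f := e) fun q => by simp)

instance isTotallyComplex_K : IsTotallyComplex R.K := by
  refine ⟨fun v => ?_⟩
  rw [← InfinitePlace.not_isReal_iff_isComplex]
  intro hv
  have hr : InfinitePlace.IsReal v := hv
  have h1 := R.zeta_spec.map_of_injective (f := InfinitePlace.embedding_of_isReal hr)
    (InfinitePlace.embedding_of_isReal hr).injective
  have h2 : (InfinitePlace.embedding_of_isReal hr R.zeta) ^ 3 = 1 := h1.pow_eq_one
  have h3 : InfinitePlace.embedding_of_isReal hr R.zeta = 1 := by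
    set x := InfinitePlace.embedding_of_isReal hr R.zeta
    have : (x - 1) * (x ^ 2 + x + 1) = 0 := by linear_combination h2
    rcases mul_eq_zero.mp this with h | h
    · linarith
    · nlinarith [sq_nonneg (x + 1 / 2)]
  exact h1.ne_one (by norm_num) h3

instance isTotallyComplex_fld {H : Subgroup G3} [Fact (H ≤ SLs)] : IsTotallyComplex (R.fld H) :=
  isTotallyComplex_of_algebra R.K (R.fld H)

end OctaG

end Fermat.Agent.LTG.K
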